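/-
helper34: P-MW block E, row 913 (MW-E-T).

`theorem tDataExists (hD : DescentStatement) : TDataExistsStatement`:
the function field of `X₀(N)` over `ℚ` contains a nonconstant function whose only pole is the
cusp `∞` (the place of `q`-order).

Proof: over `ℚ̄` there is a function `f₀` with its only pole at `P` (Riemann); the space
`V = L(m P)`, `m = -ord_P f₀`, is stable under the coefficientwise Galois action (which fixes
`P`), hence spanned by its rational elements (descent); since `f₀ ∈ V` is not constant, some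
rational element of `V` is not constant.
-/
import Fermat.Agent.H23.MWE.Interfaces
import Fermat.Agent.H1.MW.CuspModular
import Fermat.Agent.H53.SS2.InvRepGalois
import Fermat.Agent.H53.ES.OpenStab
import Fermat.Agent.H54.EsC.FieldFinite
import Fermat.Agent.H58.KL.ModelTr

set_option autoImplicit false
set_option linter.style.haveILetI false

noncomputable section

open ModularCurve AlgebraicCurve IntermediateField

namespace Fermat.Agent.H34.MWE

open Fermat.Agent.H92.MW (QQbar)
open Fermat.Agent.H23.MWE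

section General

variable (F₀ : IntermediateField ℚ (LaurentSeries ℚ))

/-- The divisor `m P` is fixed by an automorphism fixing `P`. -/
theorem single_smul_apply (P : Place QQbar (FBar F₀)) (m : ℤ)
    (g : SemilinearAut QQbar (FBar F₀)) (hg : g • P = P) (Q : Place QQbar (FBar F₀)) :
    (Finsupp.single P m : Divisor QQbar (FBar F₀)) (g⁻¹ • Q)
      = (Finsupp.single P m : Divisor QQbar (FBar F₀)) Q := by
  classical
  by_cases hQ : Q = P
  · have h1 : g⁻¹ • Q = P := by
      rw [hQ, inv_smul_eq_iff, hg]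
    rw [h1, hQ]
  · have h1 : g⁻¹ • Q ≠ P := by
      intro h
      apply hQ
      rw [inv_smul_eq_iff, hg] at h
      exact h
    rw [Finsupp.single_apply, Finsupp.single_apply, if_neg (Ne.symm h1), if_neg (Ne.symm hQ)]

/-- `L(m P)` is stable under the coefficientwise Galois action. -/
theorem rrSpace_single_stable (P : Place QQbar (FBar F₀))
    (hP : ∀ f : FBar F₀, P.ord f = ((f : FBar F₀) : LaurentSeries QQbar).order) (m : ℤ)
    (σ : GalQ) (v : FBar F₀)
    (hv : v ∈ riemannRochSpace (Finsupp.single P m : Divisor QQbar (FBar F₀))) :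
    arithmeticGalois F₀ σ • v
      ∈ riemannRochSpace (Finsupp.single P m : Divisor QQbar (FBar F₀)) := by
  have hσP : arithmeticGalois F₀ σ • P = P :=
    Fermat.Agent.H53.arithmeticGalois_smul_qPlace F₀ P hP σ
  rw [mem_riemannRochSpace_iff] at hv ⊢
  intro Q
  rcases hv ((arithmeticGalois F₀ σ)⁻¹ • Q) with h0 | h0
  · left
    rw [h0, smul_zero]
  · right
    have h1 := SemilinearAut.ord_smul (arithmeticGalois F₀ σ)
      ((arithmeticGalois F₀ σ)⁻¹ • Q) v
    rw [smul_inv_smul] at h1
    rw [h1, ← single_smul_apply F₀ P m (arithmeticGalois F₀ σ) hσP Q]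
    exact h0

/-- An element of `ℚ̄ · F₀` of negative `q`-order is transcendental over `ℚ̄`. -/
theorem transcendental_bar_of_order_neg (f : FBar F₀)
    (hf : ((f : FBar F₀) : LaurentSeries QQbar).order < 0) : Transcendental QQbar f := by
  have h1 : Transcendental QQbar ((f : FBar F₀) : LaurentSeries QQbar) :=
    Fermat.Agent.H58.kltr_transcendental_of_order_neg _ hf
  intro halg
  have h3 : IsAlgebraic QQbar (algebraMap (FBar F₀) (LaurentSeries QQbar) f) := halg.algebraMap
  exact h1 h3

/-- An element of `F₀` of negative `q`-order is transcendental over `ℚ`. -/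
theorem transcendental_rat_of_order_neg (f : ↥F₀)
    (hf : ((f : ↥F₀) : LaurentSeries ℚ).order < 0) : Transcendental ℚ f := by
  have h1 : Transcendental ℚ ((f : ↥F₀) : LaurentSeries ℚ) :=
    Fermat.Agent.H58.kltr_transcendental_of_order_neg _ hf
  rintro ⟨p, hp0, hp⟩
  apply h1
  refine ⟨p, hp0, ?_⟩
  rw [Polynomial.aeval_def] at hp ⊢
  have h2 := Polynomial.hom_eval₂ p (algebraMap ℚ ↥F₀) (F₀.val : ↥F₀ →+* LaurentSeries ℚ) f
  rw [hp, map_zero] at h2
  have h3 : ((F₀.val : ↥F₀ →+* LaurentSeries ℚ).comp (algebraMap ℚ ↥F₀))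
      = algebraMap ℚ (LaurentSeries ℚ) := Subsingleton.elim _ _
  rw [h3] at h2
  exact h2.symm

/-- **Core of MW-E-T**: from the cusp setting and descent. -/
theorem tData_of_cuspSetting (hD : DescentStatement) (P : Place QQbar (FBar F₀))
    (hrr : Fermat.Agent.H58.RRHyp QQbar (FBar F₀))
    (hP : ∀ f : FBar F₀, P.ord f = ((f : FBar F₀) : LaurentSeries QQbar).order)
    (x : ↥F₀) (hx2 : FiniteDimensional ℚ⟮x⟯ ↥F₀)
    (hx4 : FiniteDimensional QQbar⟮toBar F₀ x⟯ (FBar F₀)) :
    ∃ t : ↥F₀, TData F₀ t P := by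
  classical
  haveI := hrr.principal
  obtain ⟨f₀, hf₀, hf₀P, hf₀Q⟩ := Fermat.Agent.H53.exists_single_pole hrr P
  obtain ⟨m, hm⟩ : ∃ m : ℤ, m = -P.ord f₀ := ⟨_, rfl⟩
  have hf₀V : f₀ ∈ riemannRochSpace (Finsupp.single P m : Divisor QQbar (FBar F₀)) := by
    rw [mem_riemannRochSpace_iff]
    intro Q
    right
    by_cases hQ : Q = P
    · rw [hQ, Finsupp.single_eq_same, hm]
      omega
    · rw [Finsupp.single_apply, if_neg (Ne.symm hQ)]
      have := hf₀Q Q hQ
      omega
  have hspan := hD F₀ (riemannRochSpace (Finsupp.single P m : Divisor QQbar (FBar F₀)))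
    (fun σ v hv => rrSpace_single_stable F₀ P hP m σ v hv) f₀ hf₀V
  -- a rational nonconstant element
  obtain ⟨t, htV, htc⟩ : ∃ t : ↥F₀,
      toBar F₀ t ∈ riemannRochSpace (Finsupp.single P m : Divisor QQbar (FBar F₀)) ∧
      ∀ c : QQbar, toBar F₀ t ≠ algebraMap QQbar (FBar F₀) c := by
    by_contra hcon
    simp only [not_exists, not_and, not_forall, not_not] at hcon
    have hle : Submodule.span QQbar {w : FBar F₀ |
        w ∈ riemannRochSpace (Finsupp.single P m : Divisor QQbar (FBar F₀)) ∧
          ∃ f : ↥F₀, toBar F₀ f = w} ≤ Submodule.span QQbar {(1 : FBar F₀)} := by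
      apply Submodule.span_le.mpr
      rintro w ⟨hwV, f, rfl⟩
      obtain ⟨c, hc⟩ := hcon f hwV
      show toBar F₀ f ∈ Submodule.span QQbar {(1 : FBar F₀)}
      rw [Submodule.mem_span_singleton]
      exact ⟨c, by rw [hc, Algebra.smul_def, mul_one]⟩
    have h1 := hle hspan
    rw [Submodule.mem_span_singleton] at h1
    obtain ⟨c, hc⟩ := h1
    have h2 : f₀ = algebraMap QQbar (FBar F₀) c := by
      rw [← hc, Algebra.smul_def, mul_one]
    by_cases hc0 : c = 0
    · apply hf₀
      rw [h2, hc0, map_zero]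
    · rw [h2, Fermat.Agent.H23.ord_algebraMap P c] at hf₀P
      exact lt_irrefl _ hf₀P
  have ht0 : toBar F₀ t ≠ 0 := fun h0 => htc 0 (by rw [h0, map_zero])
  rw [mem_riemannRochSpace_iff] at htV
  have hreg : ∀ Q : Place QQbar (FBar F₀), Q ≠ P → 0 ≤ Q.ord (toBar F₀ t) := by
    intro Q hQ
    rcases htV Q with h0 | h0
    · exact absurd h0 ht0
    · rw [Finsupp.single_apply, if_neg (Ne.symm hQ)] at h0
      omega
  have hpole : P.ord (toBar F₀ t) < 0 := by
    by_contra hcon
    rw [not_lt] at hcon
    have hmem : toBar F₀ t ∈ riemannRochSpace (0 : Divisor QQbar (FBar F₀)) := by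
      rw [mem_riemannRochSpace_iff]
      intro Q
      right
      simp only [Finsupp.coe_zero, Pi.zero_apply, neg_zero]
      by_cases hQ' : Q = P
      · rw [hQ']; exact hcon
      · exact hreg Q hQ'
    obtain ⟨c, hc⟩ := (Fermat.Agent.H58.rr_mem_zero_iff hrr.deg_one P).mp hmem
    exact htc c hc
  have hordbar : ((toBar F₀ t : FBar F₀) : LaurentSeries QQbar).order < 0 := by
    rw [← hP]
    exact hpole
  have hordrat : ((t : ↥F₀) : LaurentSeries ℚ).order < 0 := by
    rw [← Fermat.Agent.H58.kltr_order_coeffEmb QQbar]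
    exact hordbar
  have htb : Transcendental QQbar (toBar F₀ t) := transcendental_bar_of_order_neg F₀ _ hordbar
  have htr : Transcendental ℚ t := transcendental_rat_of_order_neg F₀ _ hordrat
  refine ⟨t, ⟨fun f _ => hP f, htr, htb, ?_, ?_, hpole, hreg⟩⟩
  · exact Fermat.Agent.H54.finiteDimensional_adjoin_simple_of_transcendental hx2 htr
  · exact Fermat.Agent.H54.finiteDimensional_adjoin_simple_of_transcendental hx4 htb

end General

/-- **MW-E-T.** -/
theorem tDataExists (hD : DescentStatement) : TDataExistsStatement := by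
  intro N _
  obtain ⟨P, hP⟩ := Fermat.Agent.H1.MW.cuspModularStatement N
  obtain ⟨x, -, hx2, -, hx4⟩ := hP.sep
  obtain ⟨t, ht⟩ := tData_of_cuspSetting (modularFunctionFieldFull N) hD P hP.rr hP.cusp x hx2 hx4
  exact ⟨t, P, ht⟩

end Fermat.Agent.H34.MWE

end
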